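import Fermat.Agent.S38.H781.IAModLevel
import Fermat.Agent.S59.TW.H564.GenNil
import Fermat.Agent.S59.TW.H564.ParPkg
import Fermat.Agent.S59.Arch.WilesLevel

/-!
# Row HARD, cell HECKE, layer 3: leaf IA-MOD  (helper781)

`iaMod : IA.Hecke.IAModStatement` VERBATIM (`S38/IA/Hecke/Spec3.lean` v2, helper3): the Hecke ring
`T_Q = heckeLocal (N_min ∏_{Piv ∪ Q} q²)` of the package `P_Q` acts on the localisation
`V ⊆ X_K(𝒪)`, `K = Γ₀(N_min) ∩ Γ_H(Piv ∪ Q)`, through the twisted operators `⟨ℓ⟩^h T_ℓ`, for an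
`h` with `2h ≡ -1` modulo the exponents of `Δ_Piv` and `Δ_Q`.

Pure glue of main, for the combined family `Sum.elim pv qv`:
* `H564.isParabolic_of_pkg` (PAR: `V` consists of parabolic classes);
* `H658.exists_heckeAction_sub_of_odd` (TW-ES + TW-TWIST: the ring homomorphism
  `heckeAlgebra N' 2 Σ →+* End V`, `T_ℓ ↦ ⟨ℓ⟩^h T_ℓ`);
* `H564.exists_locAction` (GENNIL + LOCACT: extension to the localisation `heckeLocal`);
* the level arithmetic of `IAModLevel.lean`.

`iaMod_core_h781` is the same statement for an arbitrary type `t` at `p` and an arbitrary family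
`qq : ι → ℕ` of distinct primes outside `Smin` (no hypothesis on `ρ̄` at the `qq s`).
-/

set_option autoImplicit false
set_option linter.unusedSectionVars false
set_option linter.style.haveILetI false
set_option maxHeartbeats 1000000
set_option synthInstance.maxHeartbeats 400000

noncomputable section

namespace Fermat.Agent.S38.H781

open CongruenceSubgroup IsLocalRing CuspForm
open Fermat.Agent.S59.Arch Fermat.Agent.S59.TW.H959 Fermat.Agent.S59.TW.H653
open Fermat.Agent.S59.TW.Aut Fermat.Agent.S59.TW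
open Fermat.Agent.S38.IA Fermat.Agent.S38.IA.Hecke
open scoped MatrixGroups

section Core

variable {p : ℕ} [Fact p.Prime]
  {𝒪 : Type} [CommRing 𝒪] [IsDomain 𝒪] [IsDiscreteValuationRing 𝒪]
  [IsAdicComplete (maximalIdeal 𝒪) 𝒪] [Finite (ResidueField 𝒪)] [CharZero 𝒪]
  {ρbar : ResidualGaloisRep (ResidueField 𝒪)} {Smin : Finset ℕ} {t : PType} {Sig : Finset ℕ}
  [NeZero (wilesLevel p t Smin Sig)]
  {ι : Type} [Fintype ι] (qq : ι → ℕ)

/-- **IA-MOD, core.**  `qq : ι → ℕ` a family of distinct primes outside `Smin`,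
`Σ = Smin ∪ image qq`, `K = KG p N₀ qq`, `V ⊆ X_K(𝒪)` a localisation at an eigen-system containing
`TsetOf P`, `h` with `p^{m_s} ∣ 2h + 1` for all `s`: the Hecke ring of the package acts on `V`
through `T_ℓ ↦ ⟨ℓ⟩^h T_ℓ`. -/
theorem iaMod_core_h781 (hRH : ResidualHyp p 𝒪 ρbar Smin)
    (hqi : Function.Injective qq) (hq : ∀ s, (qq s).Prime ∧ qq s ∉ Smin)
    (hSig : Sig = Smin ∪ Finset.univ.image qq)
    (P : HeckePkg p 𝒪 ρbar t Smin Sig) {Uset : Set (ℕ × 𝒪)}
    (V : Submodule 𝒪 (Additive (KG p (wilesLevel p t Smin Smin) qq) →+ 𝒪))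
    (hV : IsLocPart (isMid_KG p (wilesLevel p t Smin Smin) qq) (TsetOf P) Uset V)
    {h a : ℕ} (hh : ∀ s, p ^ padicValNat p (qq s - 1) ∣ 2 * h + 1)
    (ha : ∀ s, p ^ padicValNat p (qq s - 1) ∣ p ^ a) :
    ∃ act : P.T →ₐ[𝒪] Module.End 𝒪 V,
      ActsBy P V act (tOpTw (isMid_KG p (wilesLevel p t Smin Smin) qq) 𝒪 h) := by
  classical
  have hp : p.Prime := Fact.out
  have hSminP := hRH.hSmin
  have hpS := hRH.hpSmin
  -- the levels
  have hN₀ : wilesLevel p t Smin Smin ≠ 0 :=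
    wilesLevel_ne_zero hp hSminP hSminP
  haveI hMne : NeZero (gLevel (wilesLevel p t Smin Smin) qq) :=
    ⟨gLevel_ne_zero _ qq hN₀ fun s => (hq s).1⟩
  have hSigP : ∀ q ∈ Sig, q.Prime := by
    intro q hqS
    rw [hSig, Finset.mem_union] at hqS
    rcases hqS with h1 | h1
    · exact hSminP q h1
    · obtain ⟨s, -, rfl⟩ := Finset.mem_image.mp h1
      exact (hq s).1
  have hsub : Smin ⊆ Sig := by
    rw [hSig]
    exact Finset.subset_union_left
  have hS : ∀ q : ℕ, q.Prime → q ∣ wilesLevel p t Smin Sig → q ∈ (↑Sig : Set ℕ) :=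
    fun q hqp hd => Finset.mem_coe.mpr
      (mem_of_prime_dvd_wilesLevel hp hSminP hSigP hpS hsub q hqp hd)
  have hN' : gLevel (wilesLevel p t Smin Smin) qq * ∏ s, qq s ∣ wilesLevel p t Smin Sig := by
    rw [hSig]
    exact gLevel_mul_prod_dvd_h781 p t Smin qq hqi fun s => (hq s).2
  have hMN : gLevel (wilesLevel p t Smin Smin) qq ∣ wilesLevel p t Smin Sig :=
    (Dvd.intro _ rfl).trans hN'
  have hK := isMid_KG p (wilesLevel p t Smin Smin) qq
  haveI : (KG p (wilesLevel p t Smin Smin) qq).FiniteIndex :=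
    H564.finiteIndex_of_Gamma1_le hK.ge
  -- the list of the primes
  set Qs : List ℕ := (Finset.univ : Finset ι).toList.map qq with hQsdef
  have hQsprod : Qs.prod = ∏ s, qq s := Finset.prod_map_toList _ _
  have hQsnd : Qs.Nodup := (Finset.nodup_toList _).map hqi
  have hQsmem : ∀ q ∈ Qs, ∃ s, qq s = q := by
    intro q hqQ
    obtain ⟨s, -, hs⟩ := List.mem_map.mp hqQ
    exact ⟨s, hs⟩
  -- `V` is parabolic
  have hpSig : p ∈ Sig := hsub hpS
  have hpar : ∀ v ∈ V, ModularCurve.Period.IsParabolicHom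
      (KG p (wilesLevel p t Smin Smin) qq) v :=
    H564.isParabolic_of_pkg hRH hpSig P hS hK hMN hV
  -- the ring homomorphism
  obtain ⟨Ψ, hΨ⟩ := H658.exists_heckeAction_sub_of_odd (R := 𝒪) hK Qs hQsnd
    (fun q hqQ => by
      obtain ⟨s, rfl⟩ := hQsmem q hqQ
      exact ⟨(hq s).1, exists_gLevel_eq_h781 p t Smin qq hpS hSminP hqi hq s⟩)
    (fun γ hγ hd => by
      rw [hQsprod] at hd
      exact mem_KG_of_dvd_h781 p _ qq hγ hd)
    h (fun γ hγ => pow_mem_KG_h781 p _ qq hh hγ)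
    (N' := wilesLevel p t Smin Sig) (by rw [hQsprod]; exact hN')
    (↑Sig : Set ℕ) hS V hpar
    (fun ℓ _ hℓN _ v hv =>
      H658.stable_of_isLocPart hK hV _ ℓ (fun hd => hℓN (hd.trans hMN)) v hv)
  -- the localisation
  haveI := P.integral
  obtain ⟨act, hact⟩ := H564.exists_locAction hK hp hRH.hp2 hRH.hp𝒪 hMN hS hV
    (θ := P.θ)
    (fun ℓ hℓ hℓN hℓS c hc => ⟨hℓ, hℓN, hℓS, hc⟩)
    (fun ℓ => H658.uCls (gLevel (wilesLevel p t Smin Smin) qq) ℓ ^ h) a
    (fun ℓ x => by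
      apply diamondU_of_gChi
      exact gChi_pow_h781 p _ qq ha _)
    Ψ hΨ
  refine ⟨act, fun ℓ hℓ hℓN hℓS v => ?_⟩
  haveI : Fact ℓ.Prime := ⟨hℓ⟩
  rw [P.hπ, hact, hΨ ℓ hℓN hℓS v]
  rfl

end Core

/-- **Leaf IA-MOD.** -/
theorem iaMod : IAModStatement := by
  intro p _ _ 𝒪 _ _ _ _ _ _ ρbar Smin hRH _ Piv hPiv k pv hpv hpvPiv n r qv hq _ PQ α _ V hV
  have hp : p.Prime := Fact.out
  have hpodd : Odd p := hp.odd_of_ne_two hRH.hp2
  obtain ⟨hqinj, hqprop, -⟩ := hq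
  have hpvmem : ∀ i, pv i ∈ Piv := fun i => by
    rw [← hpvPiv]
    exact Finset.mem_image_of_mem _ (Finset.mem_univ i)
  have hdisj : ∀ i j, pv i ≠ qv j := fun i j hij =>
    (hqprop j).2.1 (Finset.mem_union_right _ (hij ▸ hpvmem i))
  have hqqinj : Function.Injective (Sum.elim pv qv) :=
    injective_sum_elim_h781 pv qv hpv hqinj hdisj
  have hqqP : ∀ s, (Sum.elim pv qv s).Prime ∧ Sum.elim pv qv s ∉ Smin := by
    rintro (i | j)
    · exact ⟨(hPiv _ (hpvmem i)).1, (hPiv _ (hpvmem i)).2.1⟩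
    · exact ⟨(hqprop j).1, fun hmem => (hqprop j).2.1 (Finset.mem_union_left _ hmem)⟩
  have hset : Smin ∪ Piv ∪ Finset.univ.image qv =
      Smin ∪ Finset.univ.image (Sum.elim pv qv) := by
    rw [image_sum_elim_h781, hpvPiv, Finset.union_assoc]
  obtain ⟨h, a, h1, h2, -, ha⟩ := exists_isHalf_two_h781 p pv qv hpodd
  obtain ⟨act, hact⟩ := iaMod_core_h781 (Sum.elim pv qv) hRH hqqinj hqqP hset PQ V hV
    (isHalf_sum_h781 p pv qv h1 h2) ha
  exact ⟨h, act, h1, h2, hact⟩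

end Fermat.Agent.S38.H781
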