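import Fermat.Agent.S38.IA.Hecke.LevelLemmas
import Fermat.Agent.S59.TW.H658.ModQRing

/-!
# Row HARD, cell HECKE, layer 3, leaf IA-MOD: arithmetic of the levels  (helper781)

Generic-index versions (family `qq : ι → ℕ`, `ι` a finite type) of the level lemmas of helper658
(`S59/TW/H658/ModQRing.lean`), in the vocabulary of helper3 (`gLevel`, `gChi`, `KG`):

* `wilesLevel_union_h781` : `N_{Smin ∪ image qq} = N_{Smin} · ∏ qq s ²`;
* `exists_gLevel_eq_h781` : every `qq s` exactly divides `gLevel N₀ qq`;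
* `mem_KG_of_dvd_h781`   : `Γ₀(M) ∩ Γ₁(∏ qq s) ⊆ KG`;
* `pow_mem_KG_h781`      : `Γ₀(M)^(2h+1) ⊆ KG` if `p^{m_s} ∣ 2h + 1` for all `s`;
* `gChi_pow_h781`        : `Δ` is killed by `p^a`, `a = ∑ m_s`;
* `exists_isHalf_two_h781` : for `p` odd, a common `h` for two families.
-/

set_option autoImplicit false
set_option linter.unusedSectionVars false

noncomputable section

namespace Fermat.Agent.S38.H781

open CongruenceSubgroup
open Fermat.Agent.S59.Arch Fermat.Agent.S59.TW.H653 Fermat.Agent.S59.TW.Aut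
open Fermat.Agent.S38.IA.Hecke
open scoped MatrixGroups

/-! ## Arithmetic of the levels -/

section Level

variable (p : ℕ) (t : PType) (Smin : Finset ℕ) {ι : Type} [Fintype ι] (qq : ι → ℕ)

theorem image_sdiff_h781 (hq : ∀ s, qq s ∉ Smin) :
    (Smin ∪ Finset.univ.image qq) \ Smin = Finset.univ.image qq := by
  ext q
  simp only [Finset.mem_sdiff, Finset.mem_union, Finset.mem_image, Finset.mem_univ, true_and]
  constructor
  · rintro ⟨h1 | h1, h2⟩
    · exact absurd h1 h2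
    · exact h1
  · rintro ⟨i, rfl⟩
    exact ⟨Or.inr ⟨i, rfl⟩, hq i⟩

/-- `N_{Smin ∪ image qq} = N_{Smin} · ∏ qq s ²`. -/
theorem wilesLevel_union_h781 (hqi : Function.Injective qq) (hq : ∀ s, qq s ∉ Smin) :
    wilesLevel p t Smin (Smin ∪ Finset.univ.image qq) =
      wilesLevel p t Smin Smin * ∏ s, qq s ^ 2 := by
  unfold wilesLevel
  rw [image_sdiff_h781 Smin qq hq, Finset.sdiff_self, Finset.prod_empty,
    Finset.prod_image (fun i _ j _ h => hqi h)]
  ring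

/-- `M · ∏ qq s = N_{Smin} · ∏ qq s ²`. -/
theorem gLevel_mul_prod_h781 :
    gLevel (wilesLevel p t Smin Smin) qq * ∏ s, qq s =
      wilesLevel p t Smin Smin * ∏ s, qq s ^ 2 := by
  rw [gLevel, Finset.prod_pow]
  ring

theorem gLevel_mul_prod_dvd_h781 (hqi : Function.Injective qq) (hq : ∀ s, qq s ∉ Smin) :
    gLevel (wilesLevel p t Smin Smin) qq * ∏ s, qq s ∣
      wilesLevel p t Smin (Smin ∪ Finset.univ.image qq) := by
  rw [gLevel_mul_prod_h781, wilesLevel_union_h781 p t Smin qq hqi hq]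

theorem gLevel_dvd_h781 (hqi : Function.Injective qq) (hq : ∀ s, qq s ∉ Smin) :
    gLevel (wilesLevel p t Smin Smin) qq ∣
      wilesLevel p t Smin (Smin ∪ Finset.univ.image qq) :=
  (Dvd.intro _ rfl).trans (gLevel_mul_prod_dvd_h781 p t Smin qq hqi hq)

variable [Fact p.Prime]

/-- Each `qq s` exactly divides `gLevel N₀ qq`. -/
theorem exists_gLevel_eq_h781 (hpS : p ∈ Smin) (hSp : ∀ q ∈ Smin, q.Prime)
    (hqi : Function.Injective qq) (hq : ∀ s, (qq s).Prime ∧ qq s ∉ Smin) (s : ι) :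
    ∃ M' : ℕ, gLevel (wilesLevel p t Smin Smin) qq = M' * qq s ∧ Nat.Coprime M' (qq s) := by
  classical
  refine ⟨wilesLevel p t Smin Smin * ∏ i ∈ Finset.univ.erase s, qq i, ?_, ?_⟩
  · rw [gLevel, ← Finset.mul_prod_erase Finset.univ qq (Finset.mem_univ s)]
    ring
  · refine Nat.Coprime.mul_left
      (Fermat.Agent.S59.TW.H658.coprime_wilesLevel p t Smin hpS hSp (hq s).1 (hq s).2) ?_
    refine Nat.Coprime.prod_left fun i hi => ?_
    exact (Nat.coprime_primes (hq i).1 (hq s).1).mpr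
      fun h => (Finset.ne_of_mem_erase hi) (hqi h)

end Level

/-! ## The group `K` -/

section Group

variable (p N₀ : ℕ) {ι : Type} [Fintype ι] (qq : ι → ℕ)

/-- `Γ₀(M) ∩ Γ₁(∏ qq s) ⊆ K`. -/
theorem mem_KG_of_dvd_h781 {γ : SL(2, ℤ)} (hγ : γ ∈ Gamma0 (gLevel N₀ qq))
    (h : ((∏ s, qq s : ℕ) : ℤ) ∣ γ 1 1 - 1) : γ ∈ KG p N₀ qq := by
  rw [KG, mem_GammaH]
  refine ⟨hγ, ?_⟩
  rw [MonoidHom.mem_ker]
  have h1 : gRed N₀ qq (dUnit _ ⟨γ, hγ⟩) = 1 := by
    funext j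
    apply Units.ext
    rw [gRed_apply]
    show ZMod.castHom (dvd_gLevel N₀ qq j) (ZMod (qq j))
      ((dUnit (gLevel N₀ qq) ⟨γ, hγ⟩ : (ZMod (gLevel N₀ qq))ˣ) : ZMod (gLevel N₀ qq)) = 1
    rw [coe_dUnit, map_intCast]
    have h2 : ((qq j : ℕ) : ℤ) ∣ γ 1 1 - 1 := by
      refine dvd_trans (Int.natCast_dvd_natCast.mpr ?_) h
      exact Finset.dvd_prod_of_mem qq (Finset.mem_univ j)
    have h3 := (ZMod.intCast_zmod_eq_zero_iff_dvd _ _).mpr h2
    push_cast at h3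
    exact sub_eq_zero.mp h3
  show (QuotientGroup.mk' (gPowSub p qq)) (gRed N₀ qq (dUnit _ ⟨γ, hγ⟩)) = 1
  rw [h1, map_one]

/-- `Δ` is killed by `c` if `p^{m_s} ∣ c` for all `s`. -/
theorem pow_mem_gPowSub_h781 {c : ℕ} (hc : ∀ s, p ^ padicValNat p (qq s - 1) ∣ c)
    (x : ∀ s : ι, (ZMod (qq s))ˣ) : x ^ c ∈ gPowSub p qq := by
  rw [gPowSub, Subgroup.mem_pi]
  intro j _
  obtain ⟨e, he⟩ := hc j
  refine ⟨x j ^ e, ?_⟩
  rw [powMonoidHom_apply, Pi.pow_apply, he, pow_mul']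

/-- `gChi u ^ c = 1` if `p^{m_s} ∣ c` for all `s`. -/
theorem gChi_pow_h781 {c : ℕ} (hc : ∀ s, p ^ padicValNat p (qq s - 1) ∣ c)
    (u : (ZMod (gLevel N₀ qq))ˣ) : gChi p N₀ qq (u ^ c) = 1 := by
  rw [map_pow, gChi_apply, ← map_pow]
  exact (QuotientGroup.eq_one_iff _).mpr (pow_mem_gPowSub_h781 p qq hc _)

theorem pow_mem_KG_h781 {c : ℕ} (hc : ∀ s, p ^ padicValNat p (qq s - 1) ∣ c) {γ : SL(2, ℤ)}
    (hγ : γ ∈ Gamma0 (gLevel N₀ qq)) : γ ^ c ∈ KG p N₀ qq := by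
  rw [KG, mem_GammaH]
  refine ⟨Subgroup.pow_mem _ hγ _, ?_⟩
  rw [MonoidHom.mem_ker]
  have h1 : (⟨γ ^ c, Subgroup.pow_mem _ hγ _⟩ : Gamma0 (gLevel N₀ qq)) =
      (⟨γ, hγ⟩ : Gamma0 (gLevel N₀ qq)) ^ c := rfl
  rw [h1, map_pow]
  exact gChi_pow_h781 p N₀ qq hc _

end Group

/-! ## The two families -/

section Two

variable (p : ℕ) {k r : ℕ} (pv : Fin k → ℕ) (qv : Fin r → ℕ)

/-- For odd `p` there is `h` with `2 h ≡ -1` modulo the exponents of `Δ_Piv` and of `Δ_Q`, and the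
exponent of `Δ_Piv × Δ_Q` divides `p ^ a`. -/
theorem exists_isHalf_two_h781 (hp : Odd p) :
    ∃ h a : ℕ, IsHalf p pv h ∧ IsHalf p qv h ∧ 2 * h + 1 = p ^ a ∧
      ∀ s : Fin k ⊕ Fin r, p ^ padicValNat p (Sum.elim pv qv s - 1) ∣ p ^ a := by
  set a := (∑ i, padicValNat p (pv i - 1)) + ∑ j, padicValNat p (qv j - 1) with ha
  have hodd : Odd (p ^ a) := hp.pow
  obtain ⟨h, hh⟩ := hodd
  have h1 : ∀ i, padicValNat p (pv i - 1) ≤ a := fun i =>
    le_trans (Finset.single_le_sum (f := fun i => padicValNat p (pv i - 1))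
      (fun _ _ => Nat.zero_le _) (Finset.mem_univ i)) (Nat.le_add_right _ _)
  have h2 : ∀ j, padicValNat p (qv j - 1) ≤ a := fun j =>
    le_trans (Finset.single_le_sum (f := fun j => padicValNat p (qv j - 1))
      (fun _ _ => Nat.zero_le _) (Finset.mem_univ j)) (Nat.le_add_left _ _)
  refine ⟨h, a, fun i => ?_, fun j => ?_, hh.symm, fun s => ?_⟩
  · rw [← hh]
    exact pow_dvd_pow p (h1 i)
  · rw [← hh]
    exact pow_dvd_pow p (h2 j)
  · rcases s with i | j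
    · exact pow_dvd_pow p (h1 i)
    · exact pow_dvd_pow p (h2 j)

theorem isHalf_sum_h781 {h : ℕ} (h1 : IsHalf p pv h) (h2 : IsHalf p qv h) :
    ∀ s : Fin k ⊕ Fin r, p ^ padicValNat p (Sum.elim pv qv s - 1) ∣ 2 * h + 1 := by
  rintro (i | j)
  · exact h1 i
  · exact h2 j

theorem image_sum_elim_h781 :
    (Finset.univ : Finset (Fin k ⊕ Fin r)).image (Sum.elim pv qv) =
      Finset.univ.image pv ∪ Finset.univ.image qv := by
  ext q
  simp only [Finset.mem_image, Finset.mem_univ, true_and, Finset.mem_union, Sum.exists,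
    Sum.elim_inl, Sum.elim_inr]

theorem injective_sum_elim_h781 (hpv : Function.Injective pv) (hqv : Function.Injective qv)
    (hdisj : ∀ i j, pv i ≠ qv j) : Function.Injective (Sum.elim pv qv) := by
  rintro (i | j) (i' | j') h
  · exact congrArg Sum.inl (hpv h)
  · exact absurd h (hdisj i j')
  · exact absurd h.symm (hdisj i' j)
  · exact congrArg Sum.inr (hqv h)

end Two

end Fermat.Agent.S38.H781
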